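import Fermat.Agent.WienerIkehara.Main
import Mathlib.NumberTheory.LSeries.Basic

/-!
# Wiener–Ikehara for Dirichlet series

For weights `w i ≥ 0` at `x i ≥ 0` the transform of `S u = ∑_{x i ≤ u} w i` is
`s⁻¹ ∑ w i exp (-s x i)`.
-/

set_option autoImplicit false

noncomputable section

namespace FA.WienerIkehara

open MeasureTheory Filter Set Complex
open scoped Topology

variable {ι : Type*} {x w : ι → ℝ}

/-- `∑_{x i ≤ u} w i`. -/
def weightSum (x w : ι → ℝ) (u : ℝ) : ℝ := ∑' i, if x i ≤ u then w i else 0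

theorem term_le (hw : ∀ i, 0 ≤ w i) {σ : ℝ} (hσ : 0 ≤ σ) (u : ℝ) (i : ι) :
    (if x i ≤ u then w i else 0) ≤ Real.exp (σ * u) * (w i * Real.exp (-(σ * x i))) := by
  split_ifs with h
  · rw [mul_left_comm, ← Real.exp_add]
    exact le_mul_of_one_le_right (hw i) (Real.one_le_exp (by nlinarith))
  · have := hw i
    positivity

theorem summable_term (hw : ∀ i, 0 ≤ w i)
    (hsum : ∀ σ > 1, Summable fun i => w i * Real.exp (-(σ * x i))) (u : ℝ) :
    Summable fun i => if x i ≤ u then w i else 0 :=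
  Summable.of_nonneg_of_le (fun i => by split_ifs <;> simp [hw i])
    (term_le hw zero_le_two u) ((hsum 2 one_lt_two).mul_left _)

theorem monotone_weightSum (hw : ∀ i, 0 ≤ w i)
    (hsum : ∀ σ > 1, Summable fun i => w i * Real.exp (-(σ * x i))) :
    Monotone (weightSum x w) := fun u v huv =>
  (summable_term hw hsum u).tsum_le_tsum (fun i => by
    split_ifs with h1 h2
    · exact le_rfl
    · exact absurd (h1.trans huv) h2
    · exact hw i
    · exact le_rfl) (summable_term hw hsum v)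

theorem weightSum_nonneg (hw : ∀ i, 0 ≤ w i) (u : ℝ) : 0 ≤ weightSum x w u :=
  tsum_nonneg fun i => by split_ifs <;> simp [hw i]

theorem weightSum_le (hw : ∀ i, 0 ≤ w i)
    (hsum : ∀ σ > 1, Summable fun i => w i * Real.exp (-(σ * x i))) {σ : ℝ} (hσ : 1 < σ)
    (u : ℝ) : weightSum x w u ≤ Real.exp (σ * u) * ∑' i, w i * Real.exp (-(σ * x i)) := by
  rw [weightSum, ← tsum_mul_left]
  exact (summable_term hw hsum u).tsum_le_tsum (term_le hw (by linarith) u)
    ((hsum σ hσ).mul_left _)

theorem integrableOn_weightSum (hw : ∀ i, 0 ≤ w i)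
    (hsum : ∀ σ > 1, Summable fun i => w i * Real.exp (-(σ * x i))) {σ : ℝ} (hσ : 1 < σ) :
    IntegrableOn (fun u => weightSum x w u * Real.exp (-(σ * u))) (Ioi 0) := by
  obtain ⟨τ, hτ, hτσ⟩ := exists_between hσ
  refine ((exp_neg_integrableOn_Ioi 0 (sub_pos.2 hτσ)).const_mul
    (∑' i, w i * Real.exp (-(τ * x i)))).mono' ?_ (ae_of_all _ fun u => ?_)
  · have := (monotone_weightSum hw hsum).measurable
    exact (by fun_prop : Measurable _).aestronglyMeasurable
  · rw [Real.norm_of_nonneg (mul_nonneg (weightSum_nonneg hw u) (Real.exp_pos _).le)]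
    refine (mul_le_mul_of_nonneg_right (weightSum_le hw hsum hτ u) (Real.exp_pos _).le).trans_eq ?_
    rw [mul_right_comm, ← Real.exp_add, mul_comm]
    ring_nf

theorem laplace_weightSum [Countable ι] (hx : ∀ i, 0 ≤ x i) (hw : ∀ i, 0 ≤ w i)
    (hsum : ∀ σ > 1, Summable fun i => w i * Real.exp (-(σ * x i))) {s : ℂ} (hs : 1 < s.re) :
    ∫ u in Ioi (0 : ℝ), (weightSum x w u : ℂ) * cexp (-(s * u)) =
      (∑' i, (w i : ℂ) * cexp (-(s * x i))) / s := by
  obtain ⟨F, hF⟩ : ∃ F : ι → ℝ → ℂ, F = fun i =>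
      (Ici (x i)).indicator fun u => (w i : ℂ) * cexp (-s * u) := ⟨_, rfl⟩
  have hneg : (-s).re < 0 := by simp; linarith
  have hint : ∀ i, Integrable (F i) (volume.restrict (Ioi 0)) := fun i => by
    rw [hF]
    exact ((integrableOn_exp_mul_complex_Ioi hneg 0).const_mul _).indicator measurableSet_Ici
  have hval : ∀ (i : ι) (f : ℝ → ℂ),
      ∫ u in Ioi 0, (Ici (x i)).indicator f u = ∫ u in Ioi (x i), f u := fun i f => by
    rw [setIntegral_indicator measurableSet_Ici]
    refine setIntegral_congr_set ((ae_eq_refl _).inter Ioi_ae_eq_Ici.symm |>.trans ?_)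
    rw [inter_eq_right.2 (Ioi_subset_Ioi (hx i))]
  have hnorm : Summable fun i => ∫ u in Ioi 0, ‖F i u‖ := by
    refine Summable.of_nonneg_of_le (fun i => integral_nonneg fun u => norm_nonneg _)
      (fun i => le_of_eq ?_) ((hsum s.re hs).div_const s.re)
    rw [hF]
    simp only [norm_indicator_eq_indicator_norm, norm_mul, Complex.norm_exp, Complex.norm_real,
      Real.norm_of_nonneg (hw i)]
    rw [setIntegral_indicator measurableSet_Ici, setIntegral_congr_set
      ((ae_eq_refl (Ioi (0 : ℝ))).inter Ioi_ae_eq_Ici.symm |>.trans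
        (Filter.EventuallyEq.of_eq (inter_eq_right.2 (Ioi_subset_Ioi (hx i)))))]
    simp only [mul_re, neg_re, neg_im, ofReal_re, ofReal_im, mul_zero, sub_zero]
    rw [integral_const_mul, integral_exp_mul_Ioi (by linarith)]
    field_simp
  have h := integral_tsum_of_summable_integral_norm hint hnorm
  calc ∫ u in Ioi (0 : ℝ), (weightSum x w u : ℂ) * cexp (-(s * u))
      = ∫ u in Ioi (0 : ℝ), ∑' i, F i u := by
        refine setIntegral_congr_fun measurableSet_Ioi fun u _ => ?_
        rw [weightSum, Complex.ofReal_tsum, ← tsum_mul_right]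
        refine tsum_congr fun i => ?_
        simp only [hF, indicator_apply, mem_Ici, neg_mul]
        split_ifs <;> simp
    _ = ∑' i, ∫ u in Ioi (0 : ℝ), F i u := h.symm
    _ = _ := by
        rw [← tsum_div_const]
        refine tsum_congr fun i => ?_
        rw [hF, hval, integral_const_mul, integral_exp_mul_complex_Ioi hneg]
        have : s ≠ 0 := fun h => by simp [h] at hs; linarith
        field_simp

/-- **Wiener–Ikehara for a general Dirichlet series.** -/
theorem tendsto_weightSum [Countable ι] (hx : ∀ i, 0 ≤ x i) (hw : ∀ i, 0 ≤ w i)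
    (hsum : ∀ σ > 1, Summable fun i => w i * Real.exp (-(σ * x i))) {A : ℝ} {G : ℂ → ℂ}
    (hG : ContinuousOn G {s | 1 ≤ s.re})
    (heq : ∀ s : ℂ, 1 < s.re → G s = (∑' i, (w i : ℂ) * cexp (-(s * x i))) - A / (s - 1)) :
    Tendsto (fun u => weightSum x w u * Real.exp (-u)) atTop (𝓝 A) := by
  refine tendsto_of_laplace (G := fun s => (G (s + 1) - A) / (s + 1))
    (monotone_weightSum hw hsum) (weightSum_nonneg hw)
    (fun σ hσ => integrableOn_weightSum hw hsum hσ) ?_ fun s hs => ?_
  · refine ((hG.comp (by fun_prop) fun s hs => ?_).sub continuousOn_const).div (by fun_prop) ?_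
    · simpa using hs
    · intro s hs h
      have := congrArg Complex.re h
      simp at this hs
      linarith
  · have h1 : 1 < (s + 1).re := by simpa using hs
    rw [heq _ h1, laplace_weightSum hx hw hsum h1, add_sub_cancel_right]
    have hs0 : s ≠ 0 := fun h => by simp [h] at hs
    have hs1 : s + 1 ≠ 0 := fun h => by simp [h] at h1; linarith
    field_simp
    ring

/-- **Wiener–Ikehara for Dirichlet series with nonnegative coefficients.** -/
theorem tendsto_sum_div {a : ℕ → ℝ} (ha : ∀ n, 0 ≤ a n)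
    (hsum : ∀ σ : ℝ, 1 < σ → LSeriesSummable (fun n => (a n : ℂ)) σ) {A : ℝ} {G : ℂ → ℂ}
    (hG : ContinuousOn G {s | 1 ≤ s.re})
    (heq : ∀ s : ℂ, 1 < s.re → G s = LSeries (fun n => (a n : ℂ)) s - A / (s - 1)) :
    Tendsto (fun X : ℝ => (∑ n ∈ Finset.Icc 1 ⌊X⌋₊, a n) / X) atTop (𝓝 A) := by
  obtain ⟨w, hw⟩ : ∃ w : ℕ → ℝ, w = fun n => if n = 0 then 0 else a n := ⟨_, rfl⟩
  obtain ⟨x, hx⟩ : ∃ x : ℕ → ℝ, x = fun n : ℕ => Real.log n := ⟨_, rfl⟩
  have hw0 : ∀ n, 0 ≤ w n := fun n => by rw [hw]; dsimp only; split_ifs <;> simp [ha]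
  have hterm : ∀ (s : ℂ) (n : ℕ),
      (w n : ℂ) * cexp (-(s * x n)) = LSeries.term (fun n => (a n : ℂ)) s n := fun s n => by
    rcases eq_or_ne n 0 with rfl | hn
    · simp [hw]
    · rw [LSeries.term_of_ne_zero hn, Complex.cpow_def_of_ne_zero (Nat.cast_ne_zero.2 hn),
        ← Complex.natCast_log, hw, hx, Complex.exp_neg, mul_comm s, div_eq_mul_inv]
      simp [hn]
  have hsum' : ∀ σ > 1, Summable fun n => w n * Real.exp (-(σ * x n)) := fun σ hσ => by
    refine Complex.summable_ofReal.1 ((hsum σ hσ).congr fun n => ?_)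
    rw [← hterm]
    push_cast
    rfl
  have h := tendsto_weightSum (fun n => hx ▸ Real.log_natCast_nonneg n) hw0 hsum' hG
    fun s hs => by rw [heq s hs, LSeries, tsum_congr (hterm s)]
  refine (h.comp Real.tendsto_log_atTop).congr' ?_
  filter_upwards [eventually_ge_atTop 1] with X hX
  have hX0 : (0 : ℝ) < X := by linarith
  rw [Function.comp_apply, Real.exp_neg, Real.exp_log hX0, ← div_eq_mul_inv, weightSum,
    tsum_eq_sum (s := Finset.Icc 1 ⌊X⌋₊) fun n hn => ?_]
  · congr 1
    refine Finset.sum_congr rfl fun n hn => ?_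
    rw [Finset.mem_Icc] at hn
    rw [if_pos, hw]
    · exact if_neg (by omega)
    · rw [hx]
      exact Real.log_le_log (Nat.cast_pos.2 hn.1) ((Nat.le_floor_iff hX0.le).1 hn.2)
  · rcases eq_or_ne n 0 with rfl | hn0
    · simp [hw]
    · refine if_neg fun h => hn (Finset.mem_Icc.2 ⟨Nat.pos_of_ne_zero hn0,
        (Nat.le_floor_iff hX0.le).2 ?_⟩)
      rw [hx] at h
      exact (Real.log_le_log_iff (Nat.cast_pos.2 (Nat.pos_of_ne_zero hn0)) hX0).1 h

end FA.WienerIkehara
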