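import Mathlib.Analysis.SpecialFunctions.ImproperIntegrals
import Mathlib.Analysis.SpecialFunctions.Trigonometric.Sinc
import Mathlib.MeasureTheory.Measure.Haar.NormedSpace

/-!
# The Fejér kernel on the line

`sinc (v / 2) ^ 2 = ∫_{-1}^{1} (1 - |t|) exp (i v t) dt`: nonnegative, integrable, with Fourier
transform of compact support.
-/

set_option autoImplicit false

noncomputable section

namespace FA.WienerIkehara

open MeasureTheory Filter Set Complex
open scoped Topology

/-- `(sin (v / 2) / (v / 2)) ^ 2`. -/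
def kernel (v : ℝ) : ℝ := Real.sinc (v / 2) ^ 2

/-- The integral of the kernel. -/
def kI : ℝ := ∫ v, kernel v

/-- The integral of the kernel over `[-h, h]`. -/
def kJ (h : ℝ) : ℝ := ∫ v in -h..h, kernel v

theorem continuous_kernel : Continuous kernel :=
  (Real.continuous_sinc.comp (continuous_id.div_const 2)).pow 2

theorem kernel_nonneg (v : ℝ) : 0 ≤ kernel v := sq_nonneg _

theorem kernel_le (v : ℝ) : kernel v ≤ 5 * (1 + v ^ 2)⁻¹ := by
  have h1 : kernel v ≤ 1 := (sq_le_one_iff_abs_le_one _).2 (Real.abs_sinc_le_one _)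
  have h2 : kernel v * v ^ 2 ≤ 4 := by
    rcases eq_or_ne v 0 with rfl | hv
    · simp
    · rw [kernel, Real.sinc_of_ne_zero (by simpa using hv)]
      calc (Real.sin (v / 2) / (v / 2)) ^ 2 * v ^ 2 = 4 * Real.sin (v / 2) ^ 2 := by
            field_simp; ring
        _ ≤ 4 := mul_le_of_le_one_right (by norm_num) (Real.sin_sq_le_one _)
  rw [← div_eq_mul_inv, le_div_iff₀ (by positivity)]
  linarith [mul_add (kernel v) 1 (v ^ 2)]

theorem integrable_kernel : Integrable kernel :=
  (integrable_inv_one_add_sq.const_mul 5).mono' continuous_kernel.aestronglyMeasurable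
    (ae_of_all _ fun v => by rw [Real.norm_of_nonneg (kernel_nonneg v)]; exact kernel_le v)

theorem tendsto_kJ : Tendsto kJ atTop (𝓝 kI) :=
  intervalIntegral_tendsto_integral integrable_kernel tendsto_neg_atTop_atBot tendsto_id

theorem kI_pos : 0 < kI :=
  integral_pos_of_integrable_nonneg_nonzero continuous_kernel integrable_kernel kernel_nonneg
    (x := 0) (by simp [kernel])

theorem kJ_nonneg {h : ℝ} (hh : 0 ≤ h) : 0 ≤ kJ h :=
  intervalIntegral.integral_nonneg (by linarith) fun v _ => kernel_nonneg v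

theorem kJ_le {h : ℝ} (hh : 0 ≤ h) : kJ h ≤ kI := by
  rw [kJ, intervalIntegral.integral_of_le (by linarith)]
  exact setIntegral_le_integral integrable_kernel (ae_of_all _ kernel_nonneg)

theorem integral_kernel_window {lam : ℝ} (hlam : 0 < lam) (y h : ℝ) :
    ∫ u in (y - h)..(y + h), kernel (lam * (y - u)) = lam⁻¹ * kJ (lam * h) := by
  simp only [mul_sub]
  rw [intervalIntegral.integral_comp_sub_mul kernel hlam.ne' (lam * y), smul_eq_mul, kJ]
  congr 2 <;> ring

theorem integral_kernel_shift {lam : ℝ} (hlam : 0 < lam) (y : ℝ) :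
    ∫ u, kernel (lam * (y - u)) = lam⁻¹ * kI := by
  rw [integral_sub_left_eq_self (fun u => kernel (lam * u)) volume y,
    Measure.integral_comp_mul_left kernel lam, abs_of_pos (inv_pos.2 hlam), smul_eq_mul, kI]

theorem integrable_kernel_shift {lam : ℝ} (hlam : 0 < lam) (y : ℝ) :
    Integrable fun u => kernel (lam * (y - u)) :=
  (integrable_kernel.comp_mul_left' hlam.ne').comp_sub_left y

theorem integral_tent_pos {w : ℂ} (hw : w ≠ 0) :
    ∫ t in (0 : ℝ)..1, (1 - (t : ℂ)) * cexp (w * t) = (cexp w - 1 - w) / w ^ 2 := by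
  have hd : ∀ t : ℝ, HasDerivAt
      (fun t : ℝ => (1 - (t : ℂ)) * cexp (w * t) / w + cexp (w * t) / w ^ 2)
      ((1 - (t : ℂ)) * cexp (w * t)) t := fun t => by
    have h1 : HasDerivAt (fun t : ℝ => (t : ℂ)) 1 t := Complex.ofRealCLM.hasDerivAt
    have h2 := (h1.const_mul w).cexp
    refine ((((h1.const_sub 1).mul h2).div_const w).add (h2.div_const (w ^ 2))).congr_deriv ?_
    field_simp
    ring
  rw [intervalIntegral.integral_eq_sub_of_hasDerivAt (fun t _ => hd t)
    (Continuous.intervalIntegrable (by fun_prop) _ _)]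
  simp only [ofReal_one, ofReal_zero, mul_one, mul_zero, sub_self, sub_zero, zero_mul, zero_div,
    zero_add, Complex.exp_zero]
  field_simp
  ring

/-- **The Fourier transform of the tent is the kernel.** -/
theorem integral_tent (v : ℝ) :
    ∫ t in (-1 : ℝ)..1, ((1 - |t| : ℝ) : ℂ) * cexp (I * (v * t : ℝ)) = (kernel v : ℂ) := by
  have hc : Continuous fun t : ℝ => ((1 - |t| : ℝ) : ℂ) * cexp (I * (v * t : ℝ)) := by fun_prop
  rw [← intervalIntegral.integral_add_adjacent_intervals (b := (0 : ℝ))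
    (hc.intervalIntegrable _ _) (hc.intervalIntegrable _ _)]
  have hleft : ∫ t in (-1 : ℝ)..0, ((1 - |t| : ℝ) : ℂ) * cexp (I * (v * t : ℝ)) =
      ∫ t in (0 : ℝ)..1, (1 - (t : ℂ)) * cexp (-(I * v) * t) := by
    have h := intervalIntegral.integral_comp_neg
      (fun t : ℝ => ((1 - |t| : ℝ) : ℂ) * cexp (I * (v * t : ℝ))) (a := (0 : ℝ)) (b := 1)
    rw [neg_zero] at h
    rw [← h]
    refine intervalIntegral.integral_congr fun t ht => ?_
    rw [uIcc_of_le zero_le_one] at ht
    simp only [abs_neg, abs_of_nonneg ht.1]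
    push_cast
    ring_nf
  have hright : ∫ t in (0 : ℝ)..1, ((1 - |t| : ℝ) : ℂ) * cexp (I * (v * t : ℝ)) =
      ∫ t in (0 : ℝ)..1, (1 - (t : ℂ)) * cexp ((I * v) * t) := by
    refine intervalIntegral.integral_congr fun t ht => ?_
    rw [uIcc_of_le zero_le_one] at ht
    simp only [abs_of_nonneg ht.1]
    push_cast
    ring_nf
  rw [hleft, hright]
  rcases eq_or_ne v 0 with rfl | hv
  · have h : ∫ t in (0 : ℝ)..1, (1 - (t : ℂ)) = 1 / 2 := by
      rw [intervalIntegral.integral_eq_sub_of_hasDerivAt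
        (f := fun t : ℝ => (t : ℂ) - (t : ℂ) ^ 2 / 2) (fun t _ => ?_)
        (Continuous.intervalIntegrable (by fun_prop) _ _)]
      · norm_num
      · have h1 : HasDerivAt (fun t : ℝ => (t : ℂ)) 1 t := Complex.ofRealCLM.hasDerivAt
        refine (h1.sub ((h1.pow 2).div_const 2)).congr_deriv ?_
        push_cast
        ring
    simp only [ofReal_zero, mul_zero, neg_zero, zero_mul, Complex.exp_zero, mul_one, h, kernel,
      zero_div, Real.sinc_zero, one_pow, ofReal_one]
    norm_num
  have hw : I * (v : ℂ) ≠ 0 := mul_ne_zero I_ne_zero (ofReal_ne_zero.2 hv)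
  rw [integral_tent_pos (neg_ne_zero.2 hw), integral_tent_pos hw, neg_sq, ← add_div, kernel,
    Real.sinc_of_ne_zero (by simpa using hv)]
  have h1 : cexp (-(I * v)) + cexp (I * v) = 2 * Complex.cos v := by
    rw [Complex.two_cos, mul_comm I (v : ℂ), neg_mul, add_comm]
  have h2 : Real.cos v = 1 - 2 * Real.sin (v / 2) ^ 2 := by
    have := Real.cos_two_mul (v / 2)
    rw [show 2 * (v / 2) = v by ring] at this
    linarith [Real.sin_sq_add_cos_sq (v / 2)]
  rw [show cexp (-(I * v)) - 1 - -(I * v) + (cexp (I * v) - 1 - I * v) = 2 * Complex.cos v - 2 by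
    rw [← h1]; ring, ← ofReal_cos, h2, mul_pow, I_sq]
  push_cast
  field_simp
  ring

end FA.WienerIkehara
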