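import Fermat.Agent.WienerIkehara.Kernel
import Mathlib.Analysis.Fourier.RiemannLebesgueLemma
import Mathlib.MeasureTheory.Integral.ExpDecay

/-!
# The Wiener–Ikehara theorem

With `a u = S u exp (-u)`, continuity of `∫ (a u - A) exp (-s u) du` up to `re s = 0` and the
lemma of Riemann and Lebesgue give `∫ a u K (λ (y - u)) du → A ∫ K / λ`; as `S` increases, `a`
hardly decreases over short intervals, so `a → A`.
-/

set_option autoImplicit false

noncomputable section

namespace FA.WienerIkehara

open MeasureTheory Filter Set Complex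
open scoped Topology FourierTransform

variable (S : ℝ → ℝ) (A lam : ℝ) (G : ℂ → ℂ)

/-- `S u / exp u`. -/
def ratio (u : ℝ) : ℝ := S u * Real.exp (-u)

/-- The smoothed ratio. -/
def smoothed (y : ℝ) : ℝ := ∫ u in Ioi 0, ratio S u * kernel (lam * (y - u))

/-- `∫ (1 - |t|) exp (i λ y t) G (ε + i λ t) dt`. -/
def boundary (ε y : ℝ) : ℂ :=
  ∫ t in (-1 : ℝ)..1,
    ((1 - |t| : ℝ) : ℂ) * cexp (I * (lam * y * t : ℝ)) * G ((ε : ℂ) + I * (lam * t : ℝ))

variable {S A lam G}

theorem measurable_ratio (hS : Monotone S) : Measurable (ratio S) :=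
  hS.measurable.mul (Real.measurable_exp.comp measurable_neg)

theorem integrableOn_ratio_sub (hint : ∀ σ > 0,
    IntegrableOn (fun u => ratio S u * Real.exp (-(σ * u))) (Ioi 0)) (A : ℝ) {σ : ℝ} (hσ : 0 < σ) :
    IntegrableOn (fun u => (ratio S u - A) * Real.exp (-(σ * u))) (Ioi 0) := by
  have h := (exp_neg_integrableOn_Ioi 0 hσ).const_mul A
  simp only [neg_mul] at h
  exact ((hint σ hσ).sub h).congr_fun (fun u _ => by simp only [Pi.sub_apply]; ring)
    measurableSet_Ioi

theorem boundary_eq (hS : Monotone S)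
    (hint : ∀ σ > 0, IntegrableOn (fun u => ratio S u * Real.exp (-(σ * u))) (Ioi 0))
    (heq : ∀ s : ℂ, 0 < s.re →
      G s = ∫ u in Ioi (0 : ℝ), ((ratio S u - A : ℝ) : ℂ) * cexp (-(s * u)))
    {ε : ℝ} (hε : 0 < ε) (y : ℝ) :
    boundary lam G ε y = ((∫ u in Ioi 0,
      (ratio S u - A) * Real.exp (-(ε * u)) * kernel (lam * (y - u)) : ℝ) : ℂ) := by
  obtain ⟨F, hF⟩ : ∃ F : ℝ → ℝ → ℂ, F = fun t u => ((1 - |t| : ℝ) : ℂ) *
      cexp (I * (lam * (y - u) * t : ℝ)) * (((ratio S u - A) * Real.exp (-(ε * u)) : ℝ) : ℂ) :=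
    ⟨_, rfl⟩
  have hInt : Integrable (Function.uncurry F)
      ((volume.restrict (Ioc (-1 : ℝ) 1)).prod (volume.restrict (Ioi (0 : ℝ)))) := by
    refine ((integrable_const (1 : ℝ)).mul_prod
      (integrableOn_ratio_sub hint A hε).norm).mono' ?_ ?_
    · have := measurable_ratio hS
      rw [hF]
      exact (by fun_prop : Measurable _).aestronglyMeasurable
    · rw [Measure.prod_restrict]
      refine (ae_restrict_iff' (measurableSet_Ioc.prod measurableSet_Ioi)).2 (ae_of_all _ ?_)
      rintro ⟨t, u⟩ ⟨ht, -⟩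
      simp only [Function.uncurry_apply_pair, hF, norm_mul, norm_exp_I_mul_ofReal, mul_one,
        Complex.norm_real, one_mul]
      refine mul_le_of_le_one_left (by positivity) ?_
      rw [Real.norm_eq_abs, abs_le]
      have : |t| ≤ 1 := abs_le.2 ⟨ht.1.le, ht.2⟩
      constructor <;> linarith [abs_nonneg t]
  calc boundary lam G ε y = ∫ t in Ioc (-1 : ℝ) 1, ∫ u in Ioi (0 : ℝ), F t u := by
        rw [boundary, intervalIntegral.integral_of_le (by norm_num)]
        refine setIntegral_congr_fun measurableSet_Ioc fun t _ => ?_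
        simp only [hF]
        rw [heq _ (by simp [hε]), ← integral_const_mul]
        refine setIntegral_congr_fun measurableSet_Ioi fun u _ => ?_
        have e : cexp (I * (lam * y * t : ℝ)) * cexp (-(((ε : ℂ) + I * (lam * t : ℝ)) * u)) =
            cexp (I * (lam * (y - u) * t : ℝ)) * cexp ((-(ε * u) : ℝ) : ℂ) := by
          rw [← Complex.exp_add, ← Complex.exp_add]
          congr 1
          push_cast
          ring
        rw [ofReal_mul (ratio S u - A), ofReal_exp]
        linear_combination ((1 - |t| : ℝ) : ℂ) * ((ratio S u - A : ℝ) : ℂ) * e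
    _ = ∫ u in Ioi (0 : ℝ), ∫ t in Ioc (-1 : ℝ) 1, F t u := integral_integral_swap hInt
    _ = _ := by
        rw [← integral_complex_ofReal]
        refine setIntegral_congr_fun measurableSet_Ioi fun u _ => ?_
        simp only [hF]
        rw [integral_mul_const, ← intervalIntegral.integral_of_le (by norm_num), integral_tent]
        push_cast
        ring

theorem exists_boundary_bound (hG : ContinuousOn G {s | 0 ≤ s.re}) :
    ∃ M, ∀ ε ∈ Icc (0 : ℝ) 1, ∀ t ∈ Icc (-1 : ℝ) 1,
      ‖((1 - |t| : ℝ) : ℂ) * G ((ε : ℂ) + I * (lam * t : ℝ))‖ ≤ M := by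
  have hc : ContinuousOn (fun p : ℝ × ℝ =>
      ((1 - |p.2| : ℝ) : ℂ) * G ((p.1 : ℂ) + I * (lam * p.2 : ℝ)))
      (Icc (0 : ℝ) 1 ×ˢ Icc (-1 : ℝ) 1) :=
    (by fun_prop : Continuous fun p : ℝ × ℝ => ((1 - |p.2| : ℝ) : ℂ)).continuousOn.mul
      (hG.comp (by fun_prop) fun p hp => by simpa using hp.1.1)
  obtain ⟨M, hM⟩ := (isCompact_Icc.prod isCompact_Icc).exists_bound_of_continuousOn hc
  exact ⟨M, fun ε hε t ht => hM (ε, t) ⟨hε, ht⟩⟩

theorem tendsto_boundary (hG : ContinuousOn G {s | 0 ≤ s.re}) (y : ℝ) :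
    Tendsto (fun ε => boundary lam G ε y) (𝓝[>] 0) (𝓝 (boundary lam G 0 y)) := by
  obtain ⟨M, hM⟩ := exists_boundary_bound (lam := lam) hG
  have hev : ∀ᶠ ε : ℝ in 𝓝[>] 0, ε ∈ Icc (0 : ℝ) 1 :=
    Filter.Eventually.mono (Ioc_mem_nhdsGT one_pos) fun _ h => ⟨h.1.le, h.2⟩
  have hsub : ∀ {ε : ℝ}, 0 ≤ ε → Continuous fun t : ℝ =>
      G ((ε : ℂ) + I * (lam * t : ℝ)) := fun hε =>
    hG.comp_continuous (by fun_prop) fun t => by simpa using hε
  refine intervalIntegral.tendsto_integral_filter_of_dominated_convergence (fun _ => M) ?_ ?_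
    intervalIntegrable_const (ae_of_all _ fun t _ => ?_)
  · filter_upwards [hev] with ε hε
    exact ((by fun_prop : Continuous fun t : ℝ => ((1 - |t| : ℝ) : ℂ) *
      cexp (I * (lam * y * t : ℝ))).mul (hsub hε.1)).aestronglyMeasurable
  · filter_upwards [hev] with ε hε
    refine ae_of_all _ fun t ht => ?_
    rw [uIoc_of_le (by norm_num)] at ht
    rw [mul_right_comm, norm_mul, norm_exp_I_mul_ofReal, mul_one]
    exact hM ε hε t ⟨ht.1.le, ht.2⟩
  · refine Tendsto.const_mul _ ((hG _ (by simp)).tendsto.comp ?_)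
    refine tendsto_nhdsWithin_iff.2 ⟨?_, hev.mono fun ε hε => by simpa using hε.1⟩
    exact ((Complex.continuous_ofReal.tendsto 0).mono_left nhdsWithin_le_nhds).add_const _

theorem integrableOn_smoothed (hS : Monotone S) (hS0 : ∀ u, 0 ≤ S u)
    (hint : ∀ σ > 0, IntegrableOn (fun u => ratio S u * Real.exp (-(σ * u))) (Ioi 0))
    (hG : ContinuousOn G {s | 0 ≤ s.re})
    (heq : ∀ s : ℂ, 0 < s.re →
      G s = ∫ u in Ioi (0 : ℝ), ((ratio S u - A : ℝ) : ℂ) * cexp (-(s * u)))
    (hlam : 0 < lam) (y : ℝ) :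
    IntegrableOn (fun u => ratio S u * kernel (lam * (y - u))) (Ioi 0) := by
  obtain ⟨M, hM⟩ := exists_boundary_bound (lam := lam) hG
  obtain ⟨C, hC⟩ : ∃ C, C = M * |(1 : ℝ) - -1| + |A| * (lam⁻¹ * kI) := ⟨_, rfl⟩
  have hr0 : ∀ u, 0 ≤ ratio S u := fun u => mul_nonneg (hS0 u) (Real.exp_pos _).le
  have hk := fun u => kernel_nonneg (lam * (y - u))
  have hkc : Continuous fun u => kernel (lam * (y - u)) :=
    continuous_kernel.comp (by fun_prop)
  have hk1 : ∀ u, ‖kernel (lam * (y - u))‖ ≤ 5 := fun u => by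
    rw [Real.norm_of_nonneg (hk u)]
    exact (kernel_le _).trans (mul_le_of_le_one_right (by norm_num)
      (inv_le_one_of_one_le₀ (by nlinarith)))
  have hεint : ∀ ε > 0, IntegrableOn
      (fun u => ratio S u * Real.exp (-(ε * u)) * kernel (lam * (y - u))) (Ioi 0) := fun ε hε =>
    (hint ε hε).mul_bdd hkc.aestronglyMeasurable (ae_of_all _ hk1)
  have hbound : ∀ ε ∈ Ioc (0 : ℝ) 1,
      ∫ u in Ioi 0, ratio S u * Real.exp (-(ε * u)) * kernel (lam * (y - u)) ≤ C := by
    intro ε hε
    have hexp : IntegrableOn (fun u => A * (Real.exp (-(ε * u)) * kernel (lam * (y - u))))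
        (Ioi 0) := by
      refine Integrable.const_mul ?_ A
      have h := exp_neg_integrableOn_Ioi 0 hε.1
      simp only [neg_mul] at h
      exact h.mul_bdd hkc.aestronglyMeasurable (ae_of_all _ hk1)
    have h1 : ‖boundary lam G ε y‖ ≤ M * |(1 : ℝ) - -1| := by
      refine intervalIntegral.norm_integral_le_of_norm_le_const fun t ht => ?_
      rw [uIoc_of_le (by norm_num)] at ht
      rw [mul_right_comm, norm_mul, norm_exp_I_mul_ofReal, mul_one]
      exact hM ε ⟨hε.1.le, hε.2⟩ t ⟨ht.1.le, ht.2⟩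
    rw [boundary_eq hS hint heq hε.1, Complex.norm_real, Real.norm_eq_abs] at h1
    have h2 : |∫ u in Ioi 0, A * (Real.exp (-(ε * u)) * kernel (lam * (y - u)))| ≤
        |A| * (lam⁻¹ * kI) := by
      rw [integral_const_mul, abs_mul, ← integral_kernel_shift hlam y]
      refine mul_le_mul_of_nonneg_left ?_ (abs_nonneg A)
      rw [abs_of_nonneg (setIntegral_nonneg measurableSet_Ioi fun u _ =>
        mul_nonneg (Real.exp_pos _).le (hk u))]
      refine le_trans (integral_mono_of_nonneg
        (ae_of_all _ fun u => mul_nonneg (Real.exp_pos _).le (hk u))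
        (integrable_kernel_shift hlam y).integrableOn ?_)
        (setIntegral_le_integral (integrable_kernel_shift hlam y) (ae_of_all _ hk))
      refine (ae_restrict_iff' measurableSet_Ioi).2 (ae_of_all _ fun u (hu : 0 < u) => ?_)
      exact mul_le_of_le_one_left (hk u) (Real.exp_le_one_iff.2 (by nlinarith [hε.1]))
    have h3 : ∫ u in Ioi 0, ratio S u * Real.exp (-(ε * u)) * kernel (lam * (y - u)) =
        (∫ u in Ioi 0, (ratio S u - A) * Real.exp (-(ε * u)) * kernel (lam * (y - u))) +
          ∫ u in Ioi 0, A * (Real.exp (-(ε * u)) * kernel (lam * (y - u))) := by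
      rw [← integral_add (((hεint ε hε.1).sub hexp).congr_fun (fun u _ => by
        simp only [Pi.sub_apply]; ring) measurableSet_Ioi) hexp]
      exact setIntegral_congr_fun measurableSet_Ioi fun u _ => by ring
    rw [h3, hC]
    exact add_le_add ((le_abs_self _).trans h1) ((le_abs_self _).trans h2)
  refine integrableOn_Ioi_of_intervalIntegral_norm_bounded (l := atTop) (b := fun n : ℕ => (n : ℝ))
    C 0 (fun n => ?_) tendsto_natCast_atTop_atTop (Eventually.of_forall fun n => ?_)
  · refine (((hS.monotoneOn _).integrableOn_isCompact isCompact_Icc).mono_set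
      Ioc_subset_Icc_self |>.mul_continuousOn_of_subset (g' := fun u =>
        Real.exp (-u) * kernel (lam * (y - u))) (Continuous.continuousOn (by fun_prop))
          measurableSet_Ioc isCompact_Icc Ioc_subset_Icc_self).congr_fun (fun u _ => ?_)
            measurableSet_Ioc
    simp only [ratio, mul_assoc]
  have hlim : Tendsto (fun ε => Real.exp (ε * n) * C) (𝓝[>] 0) (𝓝 C) := by
    have h : Continuous fun ε => Real.exp (ε * n) * C := by fun_prop
    simpa using (h.tendsto 0).mono_left nhdsWithin_le_nhds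
  refine ge_of_tendsto hlim (Filter.Eventually.mono (Ioc_mem_nhdsGT one_pos) fun ε hε => ?_)
  rw [intervalIntegral.integral_of_le (Nat.cast_nonneg n)]
  calc ∫ u in Ioc (0 : ℝ) n, ‖ratio S u * kernel (lam * (y - u))‖
      ≤ ∫ u in Ioc (0 : ℝ) n,
          Real.exp (ε * n) * (ratio S u * Real.exp (-(ε * u)) * kernel (lam * (y - u))) := by
        refine integral_mono_of_nonneg (ae_of_all _ fun u => norm_nonneg _)
          (((hεint ε hε.1).mono_set Ioc_subset_Ioi_self).const_mul _) ?_
        refine (ae_restrict_iff' measurableSet_Ioc).2 (ae_of_all _ fun u hu => ?_)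
        dsimp only
        rw [Real.norm_of_nonneg (mul_nonneg (hr0 u) (hk u)), ← mul_assoc, mul_left_comm,
          ← Real.exp_add]
        refine mul_le_mul_of_nonneg_right (le_mul_of_one_le_right (hr0 u) ?_) (hk u)
        exact Real.one_le_exp (by nlinarith [hu.2, hε.1])
    _ ≤ Real.exp (ε * n) * C := by
        rw [integral_const_mul]
        refine mul_le_mul_of_nonneg_left ((setIntegral_mono_set (hεint ε hε.1) (ae_of_all _ fun u =>
          mul_nonneg (mul_nonneg (hr0 u) (Real.exp_pos _).le) (hk u))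
          Ioc_subset_Ioi_self.eventuallyLE).trans (hbound ε hε)) (Real.exp_pos _).le

theorem tendsto_smoothed (hS : Monotone S) (hS0 : ∀ u, 0 ≤ S u)
    (hint : ∀ σ > 0, IntegrableOn (fun u => ratio S u * Real.exp (-(σ * u))) (Ioi 0))
    (hG : ContinuousOn G {s | 0 ≤ s.re})
    (heq : ∀ s : ℂ, 0 < s.re →
      G s = ∫ u in Ioi (0 : ℝ), ((ratio S u - A : ℝ) : ℂ) * cexp (-(s * u)))
    (hlam : 0 < lam) :
    Tendsto (fun y => lam * smoothed S lam y) atTop (𝓝 (A * kI)) := by
  have hid : ∀ y, boundary lam G 0 y =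
      ((smoothed S lam y - A * ∫ u in Ioi 0, kernel (lam * (y - u)) : ℝ) : ℂ) := by
    intro y
    refine tendsto_nhds_unique (tendsto_boundary hG y) ?_
    have hI1 := integrableOn_smoothed hS hS0 hint hG heq hlam y
    have hI2 : IntegrableOn (fun u => A * kernel (lam * (y - u))) (Ioi 0) :=
      ((integrable_kernel_shift hlam y).const_mul A).integrableOn
    have hI : IntegrableOn (fun u => (ratio S u - A) * kernel (lam * (y - u))) (Ioi 0) :=
      (hI1.sub hI2).congr_fun (fun u _ => by simp only [Pi.sub_apply]; ring) measurableSet_Ioi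
    have h : Tendsto (fun ε => ∫ u in Ioi 0,
        (ratio S u - A) * Real.exp (-(ε * u)) * kernel (lam * (y - u))) (𝓝[>] 0)
        (𝓝 (∫ u in Ioi 0, (ratio S u - A) * kernel (lam * (y - u)))) := by
      refine tendsto_integral_filter_of_dominated_convergence
        (fun u => ‖(ratio S u - A) * kernel (lam * (y - u))‖) ?_ ?_ hI.norm
        (ae_of_all _ fun u => ?_)
      · refine Eventually.of_forall fun ε => ?_
        have := measurable_ratio hS
        have := continuous_kernel.measurable
        exact (by fun_prop : Measurable _).aestronglyMeasurable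
      · filter_upwards [self_mem_nhdsWithin] with ε hε
        refine (ae_restrict_iff' measurableSet_Ioi).2 (ae_of_all _ fun u (hu : 0 < u) => ?_)
        rw [mul_right_comm, norm_mul _ (Real.exp _), Real.norm_of_nonneg (Real.exp_pos _).le]
        exact mul_le_of_le_one_right (norm_nonneg _)
          (Real.exp_le_one_iff.2 (by linarith [mul_pos (hε : (0 : ℝ) < ε) hu]))
      · have h : Continuous fun ε => (ratio S u - A) * Real.exp (-(ε * u)) *
            kernel (lam * (y - u)) := by fun_prop
        simpa using (h.tendsto 0).mono_left nhdsWithin_le_nhds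
    have e : smoothed S lam y - A * ∫ u in Ioi 0, kernel (lam * (y - u)) =
        ∫ u in Ioi 0, (ratio S u - A) * kernel (lam * (y - u)) := by
      rw [smoothed, ← integral_const_mul, ← integral_sub hI1 hI2]
      exact setIntegral_congr_fun measurableSet_Ioi fun u _ => by ring
    rw [e]
    refine ((Complex.continuous_ofReal.tendsto _).comp h).congr' ?_
    filter_upwards [self_mem_nhdsWithin] with ε hε
    exact (boundary_eq hS hint heq hε y).symm
  have h0 : Tendsto (fun y => boundary lam G 0 y) atTop (𝓝 0) := by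
    have hw : Tendsto (fun y : ℝ => -(lam * y / (2 * Real.pi))) atTop (cocompact ℝ) := by
      rw [cocompact_eq_atBot_atTop]
      refine Tendsto.mono_right ?_ le_sup_left
      exact tendsto_neg_atTop_atBot.comp
        ((tendsto_id.const_mul_atTop hlam).atTop_div_const (by positivity))
    refine ((Real.tendsto_integral_exp_smul_cocompact ((Ioc (-1 : ℝ) 1).indicator fun t =>
      ((1 - |t| : ℝ) : ℂ) * G (I * (lam * t : ℝ)))).comp hw).congr fun y => ?_
    rw [boundary, intervalIntegral.integral_of_le (by norm_num), Function.comp_apply,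
      ← integral_indicator measurableSet_Ioc]
    refine integral_congr_ae (ae_of_all _ fun t => ?_)
    dsimp only
    rw [Circle.smul_def, smul_eq_mul, Real.fourierChar_apply]
    by_cases ht : t ∈ Ioc (-1 : ℝ) 1
    · rw [indicator_of_mem ht, indicator_of_mem ht, ofReal_zero, zero_add]
      have e : cexp (((2 * Real.pi * -(t * -(lam * y / (2 * Real.pi))) : ℝ) : ℂ) * I) =
          cexp (I * (lam * y * t : ℝ)) := by
        congr 1
        push_cast
        field_simp
      rw [e]
      ring
    · rw [indicator_of_notMem ht, indicator_of_notMem ht, mul_zero]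
  have hP : Tendsto (fun y => lam * ∫ u in Ioi 0, kernel (lam * (y - u))) atTop (𝓝 kI) := by
    refine tendsto_of_tendsto_of_tendsto_of_le_of_le'
      (tendsto_kJ.comp (tendsto_id.const_mul_atTop hlam)) tendsto_const_nhds ?_
      (Eventually.of_forall fun y => ?_)
    · filter_upwards [eventually_ge_atTop 0] with y hy
      have h := setIntegral_mono_set (integrable_kernel_shift hlam y).integrableOn
        (ae_of_all _ fun u => kernel_nonneg (lam * (y - u)))
        (show Ioc (0 : ℝ) (y + y) ⊆ Ioi 0 from Ioc_subset_Ioi_self).eventuallyLE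
      rw [← intervalIntegral.integral_of_le (by linarith)] at h
      have e := integral_kernel_window hlam y y
      rw [sub_self] at e
      rw [e, inv_mul_le_iff₀ hlam] at h
      exact h
    · rw [← le_div_iff₀' hlam, div_eq_inv_mul, ← integral_kernel_shift hlam y]
      exact setIntegral_le_integral (integrable_kernel_shift hlam y)
        (ae_of_all _ fun u => kernel_nonneg _)
  have hre := (Complex.continuous_re.tendsto 0).comp h0
  simp only [Function.comp_def, hid, ofReal_re, zero_re] at hre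
  have h := (hre.const_mul lam).add (hP.const_mul A)
  rw [mul_zero, zero_add] at h
  exact h.congr fun y => by ring

theorem le_ratio_of_le {S : ℝ → ℝ} (hS : Monotone S) (hS0 : ∀ u, 0 ≤ S u) {u v d : ℝ}
    (hu : u ≤ v) (hv : v ≤ u + d) : ratio S u * Real.exp (-d) ≤ ratio S v := by
  rw [ratio, ratio, mul_assoc, ← Real.exp_add]
  exact mul_le_mul (hS hu) (Real.exp_le_exp.2 (by linarith)) (Real.exp_pos _).le (hS0 v)

theorem ratio_mul_kJ_le (hS : Monotone S) (hS0 : ∀ u, 0 ≤ S u) (hlam : 0 < lam) {x h : ℝ}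
    (hx : 0 ≤ x) (hh : 0 ≤ h)
    (hI : IntegrableOn (fun u => ratio S u * kernel (lam * (x + h - u))) (Ioi 0)) :
    ratio S x * Real.exp (-(2 * h)) * kJ (lam * h) ≤ lam * smoothed S lam (x + h) := by
  have hr0 : ∀ u, 0 ≤ ratio S u := fun u => mul_nonneg (hS0 u) (Real.exp_pos _).le
  have hsub : Ioc x (x + 2 * h) ⊆ Ioi (0 : ℝ) := fun u hu => hx.trans_lt hu.1
  have h1 : ∫ u in Ioc x (x + 2 * h),
      ratio S x * Real.exp (-(2 * h)) * kernel (lam * (x + h - u)) ≤ smoothed S lam (x + h) :=
    (setIntegral_mono_on ((integrable_kernel_shift hlam (x + h)).integrableOn.const_mul _)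
      (hI.mono_set hsub) measurableSet_Ioc fun u hu =>
        mul_le_mul_of_nonneg_right (le_ratio_of_le hS hS0 hu.1.le hu.2) (kernel_nonneg _)).trans
      (setIntegral_mono_set hI
        (ae_of_all _ fun u => mul_nonneg (hr0 u) (kernel_nonneg _)) hsub.eventuallyLE)
  rw [integral_const_mul, ← intervalIntegral.integral_of_le (by linarith)] at h1
  have e := integral_kernel_window hlam (x + h) h
  rw [add_sub_cancel_right, show x + h + h = x + 2 * h by ring] at e
  rw [e, ← mul_assoc, mul_comm _ lam⁻¹, mul_assoc, inv_mul_le_iff₀ hlam] at h1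
  exact h1

theorem smoothed_le (hS : Monotone S) (hS0 : ∀ u, 0 ≤ S u) (hlam : 0 < lam) {x h B : ℝ}
    (hB : ∀ u, 0 ≤ u → ratio S u ≤ B) (hx : 2 * h ≤ x) (hh : 0 ≤ h)
    (hI : IntegrableOn (fun u => ratio S u * kernel (lam * (x - h - u))) (Ioi 0)) :
    lam * smoothed S lam (x - h) ≤
      B * kI + (ratio S x * Real.exp (2 * h) - B) * kJ (lam * h) := by
  obtain ⟨c, hc⟩ : ∃ c, c = ratio S x * Real.exp (2 * h) - B := ⟨_, rfl⟩
  have hB0 : 0 ≤ B := (mul_nonneg (hS0 0) (Real.exp_pos _).le).trans (hB 0 le_rfl)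
  have hk : IntegrableOn (fun u => kernel (lam * (x - h - u))) (Ioi 0) :=
    (integrable_kernel_shift hlam _).integrableOn
  have hsub : Ioc (x - 2 * h) x ⊆ Ioi (0 : ℝ) := fun u hu => (sub_nonneg.2 hx).trans_lt hu.1
  have hind : IntegrableOn ((Ioc (x - 2 * h) x).indicator fun u =>
      c * kernel (lam * (x - h - u))) (Ioi 0) :=
    (hk.const_mul c).indicator measurableSet_Ioc
  have h1 : smoothed S lam (x - h) ≤ ∫ u in Ioi 0, (B * kernel (lam * (x - h - u)) +
      (Ioc (x - 2 * h) x).indicator (fun u => c * kernel (lam * (x - h - u))) u) := by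
    refine setIntegral_mono_on hI ((hk.const_mul B).add hind) measurableSet_Ioi fun u hu => ?_
    by_cases hm : u ∈ Ioc (x - 2 * h) x
    · rw [indicator_of_mem hm, ← add_mul, hc]
      refine mul_le_mul_of_nonneg_right ?_ (kernel_nonneg _)
      have := le_ratio_of_le hS hS0 (d := 2 * h) hm.2 (by linarith [hm.1])
      rw [Real.exp_neg, ← div_eq_mul_inv, div_le_iff₀ (Real.exp_pos _)] at this
      linarith
    · rw [indicator_of_notMem hm, add_zero]
      exact mul_le_mul_of_nonneg_right (hB u (le_of_lt hu)) (kernel_nonneg _)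
  rw [integral_add (hk.const_mul B) hind, integral_const_mul,
    setIntegral_indicator measurableSet_Ioc, inter_eq_right.2 hsub, integral_const_mul,
    ← intervalIntegral.integral_of_le (by linarith)] at h1
  have e := integral_kernel_window hlam (x - h) h
  rw [sub_add_cancel, show x - h - h = x - 2 * h by ring] at e
  rw [e] at h1
  have h2 : lam * (∫ u in Ioi 0, kernel (lam * (x - h - u))) ≤ kI := by
    rw [← le_div_iff₀' hlam, div_eq_inv_mul, ← integral_kernel_shift hlam (x - h)]
    exact setIntegral_le_integral (integrable_kernel_shift hlam _)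
      (ae_of_all _ fun u => kernel_nonneg _)
  calc lam * smoothed S lam (x - h)
      ≤ lam * (B * (∫ u in Ioi 0, kernel (lam * (x - h - u))) + c * (lam⁻¹ * kJ (lam * h))) :=
        mul_le_mul_of_nonneg_left h1 hlam.le
    _ = B * (lam * ∫ u in Ioi 0, kernel (lam * (x - h - u))) + c * kJ (lam * h) := by
        field_simp
    _ ≤ B * kI + c * kJ (lam * h) := by gcongr
    _ = _ := by rw [hc]

/-- **The Wiener–Ikehara theorem**, for the ratio. -/
theorem tendsto_ratio (hS : Monotone S) (hS0 : ∀ u, 0 ≤ S u)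
    (hint : ∀ σ > 0, IntegrableOn (fun u => ratio S u * Real.exp (-(σ * u))) (Ioi 0))
    (hG : ContinuousOn G {s | 0 ≤ s.re})
    (heq : ∀ s : ℂ, 0 < s.re →
      G s = ∫ u in Ioi (0 : ℝ), ((ratio S u - A : ℝ) : ℂ) * cexp (-(s * u))) :
    Tendsto (ratio S) atTop (𝓝 A) := by
  have hI := fun lam (hlam : 0 < lam) (y : ℝ) =>
    integrableOn_smoothed (lam := lam) hS hS0 hint hG heq hlam y
  have hT := fun lam (hlam : 0 < lam) => tendsto_smoothed (lam := lam) hS hS0 hint hG heq hlam
  have hup : ∀ c, A < c → ∀ᶠ x in atTop, ratio S x < c := by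
    intro c hc
    have h0 : Continuous fun h => Real.exp (2 * h) * (A + h) := by fun_prop
    obtain ⟨h, hh, hh0⟩ := (((h0.tendsto 0).mono_left nhdsWithin_le_nhds).eventually
      (eventually_lt_nhds (by simpa using hc))).and
        (self_mem_nhdsWithin : ∀ᶠ x in 𝓝[>] (0 : ℝ), 0 < x) |>.exists
    have hJ := tendsto_kJ.comp (tendsto_id.atTop_mul_const hh0)
    have hlim : Tendsto (fun l => Real.exp (2 * h) * ((A + h) * kI) / kJ (l * h)) atTop
        (𝓝 (Real.exp (2 * h) * (A + h))) := by
      have := (tendsto_const_nhds (x := Real.exp (2 * h) * ((A + h) * kI))).div hJ kI_pos.ne'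
      rw [← mul_assoc, mul_div_cancel_right₀ _ kI_pos.ne'] at this
      exact this.congr fun l => by simp [mul_assoc]
    obtain ⟨l, hl, hl0, hl1⟩ := ((hlim.eventually (eventually_lt_nhds hh)).and
      ((eventually_gt_atTop (0 : ℝ)).and (hJ.eventually (eventually_gt_nhds kI_pos)))).exists
    filter_upwards [eventually_ge_atTop (0 : ℝ),
      (tendsto_atTop_add_const_right _ h tendsto_id).eventually ((hT l hl0).eventually
        (eventually_lt_nhds (show A * kI < (A + h) * kI by nlinarith [kI_pos])))] with x hx hx'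
    have := ratio_mul_kJ_le hS hS0 hl0 hx hh0.le (hI l hl0 _)
    rw [Real.exp_neg] at this
    have hl1' : 0 < kJ (l * h) := hl1
    refine lt_of_lt_of_le ?_ hl.le
    rw [lt_div_iff₀ hl1', ← div_lt_iff₀' (Real.exp_pos _)]
    calc ratio S x * kJ (l * h) / Real.exp (2 * h)
        = ratio S x * (Real.exp (2 * h))⁻¹ * kJ (l * h) := by ring
      _ ≤ _ := this
      _ < _ := hx'
  refine tendsto_order.2 ⟨fun c hc => ?_, hup⟩
  obtain ⟨Y, hY⟩ := eventually_atTop.1 (hup (A + 1) (lt_add_one A))
  obtain ⟨B, hBd⟩ : ∃ B, B = max (A + 1) (S (max Y 0)) := ⟨_, rfl⟩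
  have hB : ∀ u, 0 ≤ u → ratio S u ≤ B := fun u hu => by
    rcases le_total (max Y 0) u with h | h
    · exact (hY u ((le_max_left _ _).trans h)).le.trans (hBd ▸ le_max_left _ _)
    · exact ((mul_le_of_le_one_right (hS0 u) (Real.exp_le_one_iff.2 (by linarith))).trans
        (hS h)).trans (hBd ▸ le_max_right _ _)
  have h0 : Continuous fun h => (A - h) * Real.exp (-(2 * h)) := by fun_prop
  obtain ⟨h, hh, hh0⟩ := (((h0.tendsto 0).mono_left nhdsWithin_le_nhds).eventually
    (eventually_gt_nhds (by simpa using hc))).and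
      (self_mem_nhdsWithin : ∀ᶠ x in 𝓝[>] (0 : ℝ), 0 < x) |>.exists
  have hJ := tendsto_kJ.comp (tendsto_id.atTop_mul_const hh0)
  have hlim : Tendsto (fun l => ((A - h) * kI - B * (kI - kJ (l * h))) / kJ (l * h) *
      Real.exp (-(2 * h))) atTop (𝓝 ((A - h) * Real.exp (-(2 * h)))) := by
    have h1 := ((tendsto_const_nhds (x := (A - h) * kI)).sub
      (((tendsto_const_nhds (x := kI)).sub hJ).const_mul B)).div hJ kI_pos.ne'
    rw [sub_self, mul_zero, sub_zero, mul_div_cancel_right₀ _ kI_pos.ne'] at h1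
    exact h1.mul_const _
  obtain ⟨l, hl, hl0, hl1⟩ := ((hlim.eventually (eventually_gt_nhds hh)).and
    ((eventually_gt_atTop (0 : ℝ)).and (hJ.eventually (eventually_gt_nhds kI_pos)))).exists
  filter_upwards [eventually_ge_atTop (2 * h),
    (tendsto_atTop_add_const_right _ (-h) tendsto_id).eventually ((hT l hl0).eventually
      (eventually_gt_nhds (show (A - h) * kI < A * kI by nlinarith [kI_pos])))] with x hx hx'
  have hl1' : 0 < kJ (l * h) := hl1
  have h2 := smoothed_le hS hS0 hl0 hB hx hh0.le (hI l hl0 _)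
  have h3 : (A - h) * kI < B * kI + (ratio S x * Real.exp (2 * h) - B) * kJ (l * h) :=
    hx'.trans_le (by simpa [sub_eq_add_neg] using h2)
  refine hl.le.trans_lt ?_
  rw [Real.exp_neg, ← div_eq_mul_inv, div_lt_iff₀ (Real.exp_pos _), div_lt_iff₀ hl1']
  linarith

/-- **The Wiener–Ikehara theorem.** -/
theorem tendsto_of_laplace (hS : Monotone S) (hS0 : ∀ u, 0 ≤ S u)
    (hint : ∀ σ > 1, IntegrableOn (fun u => S u * Real.exp (-(σ * u))) (Ioi 0))
    (hG : ContinuousOn G {s | 0 ≤ s.re})
    (heq : ∀ s : ℂ, 0 < s.re →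
      G s = (∫ u in Ioi (0 : ℝ), (S u : ℂ) * cexp (-((s + 1) * u))) - A / s) :
    Tendsto (fun u => S u * Real.exp (-u)) atTop (𝓝 A) := by
  have hint' : ∀ σ > 0, IntegrableOn (fun u => ratio S u * Real.exp (-(σ * u))) (Ioi 0) :=
    fun σ hσ => (hint (σ + 1) (lt_add_of_pos_left 1 hσ)).congr_fun (fun u _ => by
      rw [ratio, mul_assoc, ← Real.exp_add]; ring_nf) measurableSet_Ioi
  refine tendsto_ratio hS hS0 hint' hG fun s hs => ?_
  rw [heq s hs]
  have hA : ∫ u in Ioi (0 : ℝ), (A : ℂ) * cexp (-(s * u)) = A / s := by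
    simp only [← neg_mul]
    rw [integral_const_mul, integral_exp_mul_complex_Ioi (by simpa using hs)]
    simp [div_eq_mul_inv]
  have h2 : IntegrableOn (fun u : ℝ => (A : ℂ) * cexp (-(s * u))) (Ioi 0) := by
    simp only [← neg_mul]
    exact (integrableOn_exp_mul_complex_Ioi (by simpa using hs) 0).const_mul _
  have h1 : IntegrableOn (fun u : ℝ => (S u : ℂ) * cexp (-((s + 1) * u))) (Ioi 0) := by
    refine (hint (s.re + 1) (lt_add_of_pos_left 1 hs)).mono' ?_ (ae_of_all _ fun u => ?_)
    · have := hS.measurable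
      exact (by fun_prop : Measurable _).aestronglyMeasurable
    · rw [norm_mul, Complex.norm_exp, Complex.norm_real, Real.norm_of_nonneg (hS0 u)]
      simp
  rw [← hA, ← integral_sub h1 h2]
  refine setIntegral_congr_fun measurableSet_Ioi fun u _ => ?_
  simp only [ratio]
  push_cast
  rw [sub_mul, mul_assoc, ← Complex.exp_add]
  congr 3
  ring

end FA.WienerIkehara
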